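/-
S56 marathon, block "local conditions" (helper5), file 3.
**Definitions of the local conditions** as submodules of `H1loc M q = H¹(G_q, M)`:
* `Loc.IlocF q F`   : the elements of the local Galois group whose image in `G_ℚ` lies in
                      (inertia at the standard place over `q`)·`Gal(ℚ̄/F)`;
* `Loc.Wunr M q`    : the (level-wise) UNRAMIFIED classes: classes of cocycles `z` which are equal to
                      a coboundary `τ ↦ τ m - m` on `IlocF q F` for some finite level `F`;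
* `Loc.U1 u₀`       : the matrices `X` with `X u₀ = 0`, `X k² ⊆ k u₀`  (`= Hom(k²/k u₀, k u₀)`);
* `Loc.Wso p rb u₀ q` : the classes in `H¹(G_q, ad⁰ρ̄)` of cocycles with values in `U1 u₀`.
and the membership criteria for localisations of global classes.
-/
import Mathlib
import Fermat.Agent.S56lib.Dict.AdRep
import Fermat.Agent.S56lib.Main.H0
import Fermat.Agent.S56lib.TWSel.Descent

set_option autoImplicit false
set_option linter.unusedSectionVars false
set_option linter.style.haveILetI false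

noncomputable section

namespace Fermat.Agent.S56lib.Loc

open Fermat.Agent.S55lib Fermat.Agent.S56lib.Dict Fermat.Agent.S56lib.TWSel groupCohomology
  ExtCitation
open scoped Pointwise

/-! ### Unramified classes -/

section Unr

/-- the elements of the local Galois group at `q` whose image in `G_ℚ` lies in
`I_P · Gal(ℚ̄/F)`, `P` the standard place over `q` -/
def IlocF (q : Nat.Primes) (F : FieldQ) : Set (Gloc q) :=
  {τ | ∃ ι ∈ (primeLocalPlace q).inertiaSubgroupIn ℚ, ι⁻¹ * rloc q τ ∈ F.fixingSubgroup}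

theorem mem_IlocF (q : Nat.Primes) (F : FieldQ) (τ : Gloc q) :
    τ ∈ IlocF q F ↔ ∃ ι ∈ (primeLocalPlace q).inertiaSubgroupIn ℚ,
      ι⁻¹ * rloc q τ ∈ F.fixingSubgroup := Iff.rfl

theorem IlocF_anti (q : Nat.Primes) {F F' : FieldQ} (h : F ≤ F') : IlocF q F' ⊆ IlocF q F := by
  rintro τ ⟨ι, hι, hτ⟩
  exact ⟨ι, hι, IntermediateField.fixingSubgroup_antitone h hτ⟩

variable {k : Type} [CommRing k] (M : Rep.{0} k GQ) (q : Nat.Primes)

/-- **The unramified classes in `H¹(G_q, M)`** (level-wise form). -/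
def Wunr : Submodule k (H1loc M q) where
  carrier := {x | ∃ z : ↥(Sm.Z1 (rloc q) LevelClass.all (Rep.res (rloc q) M)),
    Sm.H1π (rloc q) LevelClass.all (Rep.res (rloc q) M) z = x ∧
      ∃ (m : M) (F : FieldQ), FiniteDimensional ℚ F ∧
        ∀ τ ∈ IlocF q F, (z : Gloc q → M) τ = M.ρ (rloc q τ) m - m}
  add_mem' := by
    rintro x y ⟨z, rfl, m, F, hF, h⟩ ⟨z', rfl, m', F', hF', h'⟩
    refine ⟨z + z', map_add _ _ _, m + m', F ⊔ F', ?_, fun τ hτ => ?_⟩
    · exact IntermediateField.finiteDimensional_sup F F'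
    · have e : ((z + z' : ↥(Sm.Z1 (rloc q) LevelClass.all (Rep.res (rloc q) M))) : Gloc q → M) τ
          = (z : Gloc q → M) τ + (z' : Gloc q → M) τ := rfl
      rw [e, h τ (IlocF_anti q le_sup_left hτ), h' τ (IlocF_anti q le_sup_right hτ), map_add]
      abel
  zero_mem' := by
    refine ⟨0, map_zero _, 0, ⊥, inferInstance, fun τ _ => ?_⟩
    have e : ((0 : ↥(Sm.Z1 (rloc q) LevelClass.all (Rep.res (rloc q) M))) : Gloc q → M) τ = 0 := rfl
    rw [e, map_zero, sub_zero]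
  smul_mem' := by
    rintro c x ⟨z, rfl, m, F, hF, h⟩
    refine ⟨c • z, map_smul _ _ _, c • m, F, hF, fun τ hτ => ?_⟩
    have e : ((c • z : ↥(Sm.Z1 (rloc q) LevelClass.all (Rep.res (rloc q) M))) : Gloc q → M) τ
        = c • (z : Gloc q → M) τ := rfl
    rw [e, h τ hτ, map_smul, smul_sub]

theorem mem_Wunr (x : H1loc M q) :
    x ∈ Wunr M q ↔ ∃ z : ↥(Sm.Z1 (rloc q) LevelClass.all (Rep.res (rloc q) M)),
      Sm.H1π (rloc q) LevelClass.all (Rep.res (rloc q) M) z = x ∧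
        ∃ (m : M) (F : FieldQ), FiniteDimensional ℚ F ∧
          ∀ τ ∈ IlocF q F, (z : Gloc q → M) τ = M.ρ (rloc q τ) m - m := Iff.rfl

/-- **Membership criterion**: the localisation at `q` of the class of a global smooth cocycle which
is a coboundary `σ ↦ σ m - m` on the inertia group of the standard place over `q` is unramified.
(`M` trivial on a finite level.) -/
theorem loc1_mem_Wunr (S : Finset Nat.Primes)
    (x : ↥(Sm.Z1 (MonoidHom.id GQ) (LevelClass.unr S) M))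
    (hM : ∃ F₀ : FieldQ, FiniteDimensional ℚ F₀ ∧ ∀ s ∈ F₀.fixingSubgroup, M.ρ s = 1) (m : M)
    (hm : ∀ σ ∈ (primeLocalPlace q).inertiaSubgroupIn ℚ, (x : GQ → M) σ = M.ρ σ m - m) :
    loc1 S M q (Sm.H1π (MonoidHom.id GQ) (LevelClass.unr S) M x) ∈ Wunr M q := by
  obtain ⟨F₀, hF₀, hMF₀⟩ := hM
  obtain ⟨F₁, hF₁, hxF₁⟩ := x.2.2
  haveI : FiniteDimensional ℚ F₁ := hF₁.1
  refine ⟨Sm.resZ1 (rloc q) (r := MonoidHom.id GQ) (r' := rloc q) (fun _ => rfl)
    (𝓛 := LevelClass.unr S) (𝓛' := LevelClass.all) (fun _ h => h.1) M x, rfl, m, F₀ ⊔ F₁,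
    IntermediateField.finiteDimensional_sup F₀ F₁, ?_⟩
  rintro τ ⟨ι, hι, hτ⟩
  change (x : GQ → M) (rloc q τ) = M.ρ (rloc q τ) m - m
  obtain ⟨s, hs⟩ : ∃ s : GQ, s = ι⁻¹ * rloc q τ := ⟨_, rfl⟩
  have e : rloc q τ = ι * s := by rw [hs]; group
  rw [← hs] at hτ
  have h0 : s ∈ F₀.fixingSubgroup := IntermediateField.fixingSubgroup_antitone le_sup_left hτ
  have h1 : s ∈ F₁.fixingSubgroup := IntermediateField.fixingSubgroup_antitone le_sup_right hτ
  rw [e, hxF₁ ι s h1, hm ι hι, map_mul, hMF₀ s h0, mul_one]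

end Unr

/-! ### The strict-ordinary condition -/

section SO

variable {K : Type} [Field K]

/-- `Hom(k²/k u₀, k u₀)` as a set of matrices -/
def U1 (u₀ : Fin 2 → K) : Set (Matrix (Fin 2) (Fin 2) K) :=
  {X | X.mulVec u₀ = 0 ∧ ∀ v, ∃ t : K, X.mulVec v = t • u₀}

theorem mem_U1 (u₀ : Fin 2 → K) (X : Matrix (Fin 2) (Fin 2) K) :
    X ∈ U1 u₀ ↔ X.mulVec u₀ = 0 ∧ ∀ v, ∃ t : K, X.mulVec v = t • u₀ := Iff.rfl

theorem zero_mem_U1 (u₀ : Fin 2 → K) : (0 : Matrix (Fin 2) (Fin 2) K) ∈ U1 u₀ :=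
  ⟨Matrix.zero_mulVec _, fun v => ⟨0, by rw [Matrix.zero_mulVec, zero_smul]⟩⟩

theorem add_mem_U1 {u₀ : Fin 2 → K} {X Y : Matrix (Fin 2) (Fin 2) K} (hX : X ∈ U1 u₀)
    (hY : Y ∈ U1 u₀) : X + Y ∈ U1 u₀ := by
  refine ⟨by rw [Matrix.add_mulVec, hX.1, hY.1, add_zero], fun v => ?_⟩
  obtain ⟨t, ht⟩ := hX.2 v
  obtain ⟨t', ht'⟩ := hY.2 v
  exact ⟨t + t', by rw [Matrix.add_mulVec, ht, ht', add_smul]⟩

theorem smul_mem_U1 {u₀ : Fin 2 → K} {X : Matrix (Fin 2) (Fin 2) K} (c : K) (hX : X ∈ U1 u₀) :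
    c • X ∈ U1 u₀ := by
  refine ⟨by rw [Matrix.smul_mulVec, hX.1, smul_zero], fun v => ?_⟩
  obtain ⟨t, ht⟩ := hX.2 v
  exact ⟨c * t, by rw [Matrix.smul_mulVec, ht, smul_smul]⟩

theorem neg_mem_U1 {u₀ : Fin 2 → K} {X : Matrix (Fin 2) (Fin 2) K} (hX : X ∈ U1 u₀) :
    -X ∈ U1 u₀ := by
  have := smul_mem_U1 (-1 : K) hX
  rwa [neg_one_smul] at this

theorem natCast_smul_mem_U1 {u₀ : Fin 2 → K} {X : Matrix (Fin 2) (Fin 2) K} (n : ℕ)
    (hX : X ∈ U1 u₀) : n • X ∈ U1 u₀ := by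
  have := smul_mem_U1 (n : K) hX
  rwa [Nat.cast_smul_eq_nsmul] at this

variable (p : ℕ) [Fact p.Prime] [CharP K p] (rb : GQ →* Matrix (Fin 2) (Fin 2) K)

attribute [local instance] ZMod.algebra

theorem adVal_zmod_smul (c : ZMod p) (X : adRep p rb) :
    adVal p (c • X) = (algebraMap (ZMod p) K c) • adVal p X := rfl

/-- **The strict-ordinary local condition**: the classes in `H¹(G_q, ad⁰ρ̄)` of the cocycles with values
in `U1 u₀ = Hom(k²/k u₀, k u₀)`. -/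
def Wso (u₀ : Fin 2 → K) (q : Nat.Primes) : Submodule (ZMod p) (H1loc (adRep p rb) q) where
  carrier := {x | ∃ z : ↥(Sm.Z1 (rloc q) LevelClass.all (Rep.res (rloc q) (adRep p rb))),
    Sm.H1π (rloc q) LevelClass.all (Rep.res (rloc q) (adRep p rb)) z = x ∧
      ∀ τ : Gloc q, adVal p (rb := rb) ((z : Gloc q → adRep p rb) τ) ∈ U1 u₀}
  add_mem' := by
    rintro x y ⟨z, rfl, h⟩ ⟨z', rfl, h'⟩
    exact ⟨z + z', map_add _ _ _, fun τ => add_mem_U1 (h τ) (h' τ)⟩
  zero_mem' := ⟨0, map_zero _, fun τ => zero_mem_U1 u₀⟩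
  smul_mem' := by
    rintro c x ⟨z, rfl, h⟩
    refine ⟨c • z, map_smul _ _ _, fun τ => ?_⟩
    exact smul_mem_U1 (algebraMap (ZMod p) K c) (h τ)

theorem mem_Wso (u₀ : Fin 2 → K) (q : Nat.Primes) (x : H1loc (adRep p rb) q) :
    x ∈ Wso p rb u₀ q ↔
      ∃ z : ↥(Sm.Z1 (rloc q) LevelClass.all (Rep.res (rloc q) (adRep p rb))),
        Sm.H1π (rloc q) LevelClass.all (Rep.res (rloc q) (adRep p rb)) z = x ∧
          ∀ τ : Gloc q, adVal p (rb := rb) ((z : Gloc q → adRep p rb) τ) ∈ U1 u₀ := Iff.rfl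

end SO

end Fermat.Agent.S56lib.Loc
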