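/-
S56 marathon, block "local conditions" (helper5), file 5.
**The count of the strict-ordinary local condition**: `|Wso p rb u₀ q| ≤ |H⁰(G_q, ad⁰ρ̄)| · |K|`.
* linear algebra of `U1 u₀ = Hom(K²/K u₀, K u₀)` (`dt`, `par`, `IsTri`);
* `cycloCocycles R p q` : the `χ̄_p`-twisted homomorphisms `G_q → R`; from `𝔽_p` to `K` coefficients;
* `card_Wso_le` : the count, from `|cycloCocycles K p q| ≤ |K|³` (Kummer theory, helper4's
  `Kum2/Count`), the Borel subalgebra inside the preimage of `H⁰(ad⁰/U¹)`, and `|sl₂(K)| = |K|³`.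
-/
import Mathlib
import Fermat.Agent.S56lib.Loc.Defs
import Fermat.Agent.S56lib.Fin.Additive

set_option autoImplicit false
set_option linter.unusedSectionVars false
set_option linter.style.haveILetI false

noncomputable section

namespace Fermat.Agent.S56lib.Loc

open Fermat.Agent.S55lib Fermat.Agent.S56lib.Dict groupCohomology Matrix

attribute [local instance] ZMod.algebra

section LinAlg

variable {K : Type} [Field K]

/-- the determinant of two vectors of `K²` -/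
def dt (a b : Fin 2 → K) : K := a 0 * b 1 - a 1 * b 0

theorem dt_self (a : Fin 2 → K) : dt a a = 0 := by unfold dt; ring

theorem dt_add_right (a b c : Fin 2 → K) : dt a (b + c) = dt a b + dt a c := by
  unfold dt; simp only [Pi.add_apply]; ring

theorem dt_add_left (a b c : Fin 2 → K) : dt (a + b) c = dt a c + dt b c := by
  unfold dt; simp only [Pi.add_apply]; ring

theorem dt_sub_right (a b c : Fin 2 → K) : dt a (b - c) = dt a b - dt a c := by
  unfold dt; simp only [Pi.sub_apply]; ring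

theorem dt_smul_right (a b : Fin 2 → K) (t : K) : dt a (t • b) = t * dt a b := by
  unfold dt; simp only [Pi.smul_apply, smul_eq_mul]; ring

theorem dt_smul_left (a b : Fin 2 → K) (t : K) : dt (t • a) b = t * dt a b := by
  unfold dt; simp only [Pi.smul_apply, smul_eq_mul]; ring

theorem dt_zero_right (a : Fin 2 → K) : dt a 0 = 0 := by unfold dt; simp

theorem dt_zero_left (a : Fin 2 → K) : dt 0 a = 0 := by unfold dt; simp

/-- `dt (m a) b + dt a (m b) = tr m * dt a b` -/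
theorem dt_mulVec_add (m : Matrix (Fin 2) (Fin 2) K) (a b : Fin 2 → K) :
    dt (m *ᵥ a) b + dt a (m *ᵥ b) = m.trace * dt a b := by
  unfold dt
  simp only [Matrix.mulVec, dotProduct, Fin.sum_univ_two, Matrix.trace_fin_two]
  ring

theorem exists_dt_eq_one {u : Fin 2 → K} (hu : u ≠ 0) : ∃ v : Fin 2 → K, dt u v = 1 := by
  by_cases h0 : u 0 = 0
  · have h1 : u 1 ≠ 0 := by
      intro h1
      apply hu
      funext i
      fin_cases i
      · exact h0
      · exact h1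
    refine ⟨![-(u 1)⁻¹, 0], ?_⟩
    unfold dt
    simp only [Matrix.cons_val_zero, Matrix.cons_val_one]
    field_simp
    ring
  · refine ⟨![0, (u 0)⁻¹], ?_⟩
    unfold dt
    simp only [Matrix.cons_val_zero, Matrix.cons_val_one]
    field_simp
    ring

theorem eq_smul_of_dt_eq_zero {u : Fin 2 → K} (hu : u ≠ 0) {v : Fin 2 → K} (h : dt u v = 0) :
    ∃ t : K, v = t • u := by
  unfold dt at h
  by_cases h0 : u 0 = 0
  · have h1 : u 1 ≠ 0 := by
      intro h1
      apply hu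
      funext i
      fin_cases i
      · exact h0
      · exact h1
    rw [h0, zero_mul, zero_sub, neg_eq_zero] at h
    have hv0 : v 0 = 0 := (mul_eq_zero.mp h).resolve_left h1
    refine ⟨v 1 / u 1, ?_⟩
    funext i
    fin_cases i
    · simp [h0, hv0]
    · simp only [Fin.mk_one, Pi.smul_apply, smul_eq_mul]
      field_simp
  · refine ⟨v 0 / u 0, ?_⟩
    funext i
    fin_cases i
    · simp only [Fin.zero_eta, Pi.smul_apply, smul_eq_mul]
      field_simp
    · simp only [Fin.mk_one, Pi.smul_apply, smul_eq_mul]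
      field_simp
      linear_combination h

/-- every vector is `dt u v • v₁` modulo `K u` when `dt u v₁ = 1` -/
theorem exists_decomp {u v₁ : Fin 2 → K} (hu : u ≠ 0) (h1 : dt u v₁ = 1) (v : Fin 2 → K) :
    ∃ c : K, v = dt u v • v₁ + c • u := by
  have h : dt u (v - dt u v • v₁) = 0 := by
    rw [dt_sub_right, dt_smul_right, h1, mul_one, sub_self]
  obtain ⟨c, hc⟩ := eq_smul_of_dt_eq_zero hu h
  exact ⟨c, by rw [← hc]; abel⟩

/-- the parameter of a matrix of `U1 u₀` (relative to `v₁` with `dt u₀ v₁ = 1`) -/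
def par (v₁ : Fin 2 → K) (X : Matrix (Fin 2) (Fin 2) K) : K := dt (X *ᵥ v₁) v₁

theorem par_add (v₁ : Fin 2 → K) (X Y : Matrix (Fin 2) (Fin 2) K) :
    par v₁ (X + Y) = par v₁ X + par v₁ Y := by
  unfold par
  rw [Matrix.add_mulVec, dt_add_left]

theorem par_zero (v₁ : Fin 2 → K) : par v₁ (0 : Matrix (Fin 2) (Fin 2) K) = 0 := by
  unfold par
  rw [Matrix.zero_mulVec, dt_zero_left]

variable {u₀ v₁ : Fin 2 → K}

theorem mulVec_eq_of_mem_U1 (hu : u₀ ≠ 0) (h1 : dt u₀ v₁ = 1) {X : Matrix (Fin 2) (Fin 2) K}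
    (hX : X ∈ U1 u₀) (v : Fin 2 → K) : X *ᵥ v = (par v₁ X * dt u₀ v) • u₀ := by
  obtain ⟨s, hs⟩ := hX.2 v₁
  have hpar : par v₁ X = s := by
    unfold par
    rw [hs, dt_smul_left, h1, mul_one]
  obtain ⟨c, hc⟩ := exists_decomp hu h1 v
  conv_lhs => rw [hc]
  rw [Matrix.mulVec_add, Matrix.mulVec_smul, Matrix.mulVec_smul, hX.1, smul_zero, add_zero, hs,
    hpar, smul_smul, mul_comm]

theorem eq_of_par_eq (hu : u₀ ≠ 0) (h1 : dt u₀ v₁ = 1) {X Y : Matrix (Fin 2) (Fin 2) K}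
    (hX : X ∈ U1 u₀) (hY : Y ∈ U1 u₀) (h : par v₁ X = par v₁ Y) : X = Y := by
  apply Matrix.mulVec_injective
  funext v
  rw [mulVec_eq_of_mem_U1 hu h1 hX, mulVec_eq_of_mem_U1 hu h1 hY, h]

theorem mem_U1_of_forall (h1 : dt u₀ v₁ = 1) {Y : Matrix (Fin 2) (Fin 2) K} (s : K)
    (h : ∀ v, Y *ᵥ v = (s * dt u₀ v) • u₀) : Y ∈ U1 u₀ ∧ par v₁ Y = s := by
  refine ⟨⟨by rw [h, dt_self, mul_zero, zero_smul], fun v => ⟨_, h v⟩⟩, ?_⟩
  unfold par
  rw [h, dt_smul_left, h1, mul_one, mul_one]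

/-- the data of an "upper triangular" matrix with respect to the line `K u₀` -/
structure IsTri (u₀ : Fin 2 → K) (g gi : Matrix (Fin 2) (Fin 2) K) (x z : K) : Prop where
  mul_inv : g * gi = 1
  inv_mul : gi * g = 1
  fix : g *ᵥ u₀ = x • u₀
  quot : ∀ v, ∃ t : K, g *ᵥ v - z • v = t • u₀

theorem IsTri.dt_mulVec {g gi : Matrix (Fin 2) (Fin 2) K} {x z : K} (h : IsTri u₀ g gi x z)
    (v : Fin 2 → K) : dt u₀ (g *ᵥ v) = z * dt u₀ v := by
  obtain ⟨t, ht⟩ := h.quot v
  have e : g *ᵥ v = z • v + t • u₀ := by rw [← ht]; abel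
  rw [e, dt_add_right, dt_smul_right, dt_smul_right, dt_self, mul_zero, add_zero]

theorem IsTri.dt_inv_mulVec {g gi : Matrix (Fin 2) (Fin 2) K} {x z : K} (h : IsTri u₀ g gi x z)
    (hz : z * z = 1) (v : Fin 2 → K) : dt u₀ (gi *ᵥ v) = z * dt u₀ v := by
  have h1 := h.dt_mulVec (gi *ᵥ v)
  rw [Matrix.mulVec_mulVec, h.mul_inv, Matrix.one_mulVec] at h1
  rw [h1, ← mul_assoc, hz, one_mul]

/-- conjugation by a triangular matrix acts on `U1 u₀` by the ratio of the diagonal entries -/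
theorem IsTri.conj_mem_U1 {g gi : Matrix (Fin 2) (Fin 2) K} {x z χ : K} (h : IsTri u₀ g gi x z)
    (hz : z * z = 1) (hx : x = χ * z) (hu : u₀ ≠ 0) (h1 : dt u₀ v₁ = 1)
    {X : Matrix (Fin 2) (Fin 2) K} (hX : X ∈ U1 u₀) :
    g * X * gi ∈ U1 u₀ ∧ par v₁ (g * X * gi) = χ * par v₁ X := by
  apply mem_U1_of_forall h1
  intro v
  rw [← Matrix.mulVec_mulVec, ← Matrix.mulVec_mulVec, mulVec_eq_of_mem_U1 hu h1 hX,
    Matrix.mulVec_smul, h.fix, h.dt_inv_mulVec hz, smul_smul, hx]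
  congr 1
  linear_combination (par v₁ X * dt u₀ v * χ) * hz

/-- the Borel subalgebra is contained in the preimage of `H⁰(ad⁰/U¹)` -/
theorem IsTri.conj_sub_mem_U1 {g gi : Matrix (Fin 2) (Fin 2) K} {x z : K} (h : IsTri u₀ g gi x z)
    (hz : z * z = 1) (hu : u₀ ≠ 0) {m : Matrix (Fin 2) (Fin 2) K} (htr : m.trace = 0)
    (hm : dt u₀ (m *ᵥ u₀) = 0) : g * m * gi - m ∈ U1 u₀ := by
  obtain ⟨l, hl⟩ := eq_smul_of_dt_eq_zero hu hm
  have hx0 : x ≠ 0 := by
    rintro rfl
    apply hu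
    have h2 := congrArg (fun w => gi *ᵥ w) h.fix
    simp only [Matrix.mulVec_mulVec, h.inv_mul, Matrix.one_mulVec, zero_smul,
      Matrix.mulVec_zero] at h2
    exact h2
  have hgi : gi *ᵥ u₀ = x⁻¹ • u₀ := by
    have h2 := congrArg (fun w => x⁻¹ • gi *ᵥ w) h.fix
    simp only [Matrix.mulVec_mulVec, h.inv_mul, Matrix.one_mulVec, Matrix.mulVec_smul, smul_smul,
      inv_mul_cancel₀ hx0, one_smul] at h2
    exact h2.symm
  have hdm : ∀ w, dt u₀ (m *ᵥ w) = -l * dt u₀ w := by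
    intro w
    have := dt_mulVec_add m u₀ w
    rw [hl, dt_smul_left, htr, zero_mul] at this
    linear_combination this
  constructor
  · rw [Matrix.sub_mulVec, ← Matrix.mulVec_mulVec, ← Matrix.mulVec_mulVec, hgi, Matrix.mulVec_smul,
      hl, Matrix.mulVec_smul, Matrix.mulVec_smul, h.fix, smul_smul, smul_smul, sub_eq_zero]
    congr 1
    field_simp
  · intro v
    apply eq_smul_of_dt_eq_zero hu
    rw [Matrix.sub_mulVec, dt_sub_right, ← Matrix.mulVec_mulVec, ← Matrix.mulVec_mulVec,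
      h.dt_mulVec, hdm, h.dt_inv_mulVec hz, hdm]
    linear_combination (-l * dt u₀ v) * hz

end LinAlg

section Kummer

/-- the `χ̄_p`-twisted homomorphisms `G_q → R`: smooth `f` with `f (s t) = f s + χ̄_p(s) f t` -/
def cycloCocycles (R : Type) [CommRing R] (p : ℕ) [Fact p.Prime] (q : Nat.Primes) :
    Set (Gloc q → R) :=
  {f | Sm.IsLC₁ (rloc q) LevelClass.all f ∧
    ∀ s t, f (s * t) = f s + (ExtCitation.cycloExp p (rloc q s) : R) * f t}

variable {K : Type} [Field K] [Finite K] (p : ℕ) [Fact p.Prime] [CharP K p] (q : Nat.Primes)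

/-- from `𝔽_p`-coefficients to `K`-coefficients -/
theorem card_cycloCocycles_le_of
    (hZ0 : (cycloCocycles (ZMod p) p q).Finite ∧ Nat.card (cycloCocycles (ZMod p) p q) ≤ p ^ 3) :
    (cycloCocycles K p q).Finite ∧ Nat.card (cycloCocycles K p q) ≤ Nat.card K ^ 3 := by
  classical
  haveI : Finite (cycloCocycles (ZMod p) p q) := hZ0.1.to_subtype
  let b := Module.finBasis (ZMod p) K
  let Ψ : cycloCocycles K p q → (Fin (Module.finrank (ZMod p) K) → cycloCocycles (ZMod p) p q) :=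
    fun f i => ⟨fun τ => b.repr (f.1 τ) i, f.2.1.comp (fun y => b.repr y i), fun s t => by
      simp only []
      rw [f.2.2 s t, map_add, Finsupp.coe_add, Pi.add_apply]
      congr 1
      have e : ((ExtCitation.cycloExp p (rloc q s) : ℕ) : K) * f.1 t
          = ((ExtCitation.cycloExp p (rloc q s) : ℕ) : ZMod p) • f.1 t := by
        rw [Nat.cast_smul_eq_nsmul, nsmul_eq_mul]
      rw [e, map_smul, Finsupp.coe_smul, Pi.smul_apply, smul_eq_mul]⟩
  have hΨ : Function.Injective Ψ := by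
    intro f f' h
    apply Subtype.ext
    funext τ
    apply b.repr.injective
    ext i
    have := congrArg (fun g => (g i).1 τ) h
    exact this
  haveI : Finite (cycloCocycles K p q) := Finite.of_injective Ψ hΨ
  refine ⟨Set.toFinite _, ?_⟩
  have h1 := Nat.card_le_card_of_injective Ψ hΨ
  rw [Nat.card_fun, Nat.card_fin] at h1
  have h2 : Nat.card K = p ^ Module.finrank (ZMod p) K := by
    have := Module.natCard_eq_pow_finrank (K := ZMod p) (V := K)
    rw [this, Nat.card_zmod]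
  calc Nat.card (cycloCocycles K p q)
      ≤ Nat.card (cycloCocycles (ZMod p) p q) ^ Module.finrank (ZMod p) K := h1
    _ ≤ (p ^ 3) ^ Module.finrank (ZMod p) K := Nat.pow_le_pow_left hZ0.2 _
    _ = Nat.card K ^ 3 := by rw [h2, ← pow_mul, ← pow_mul, mul_comm]

end Kummer

section CardSl2

variable {K : Type} [Field K] [Finite K]

/-- `|sl₂(K)| = |K|³` in the form `|sl₂(K)| * |K| = |K|⁴` -/
theorem card_sl2_mul : Nat.card (sl2 K) * Nat.card K = Nat.card K ^ 4 := by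
  let t : Matrix (Fin 2) (Fin 2) K →+ K := (Matrix.traceAddMonoidHom (Fin 2) K)
  have h1 := AddSubgroup.card_eq_card_quotient_mul_card_addSubgroup t.ker
  have h2 : Nat.card (Matrix (Fin 2) (Fin 2) K ⧸ t.ker) = Nat.card t.range :=
    Nat.card_congr (QuotientAddGroup.quotientKerEquivRange t).toEquiv
  have h3 : Nat.card t.range = Nat.card K := by
    apply Fin.card_range_of_surjective
    intro a
    refine ⟨Matrix.of ![![a, 0], ![0, 0]], ?_⟩
    simp [t, Matrix.trace_fin_two]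
  have h4 : Nat.card t.ker = Nat.card (sl2 K) := by
    apply Nat.card_congr
    exact Equiv.subtypeEquivRight (fun X => by
      rw [AddMonoidHom.mem_ker, mem_sl2_iff]
      rfl)
  have h5 : Nat.card (Matrix (Fin 2) (Fin 2) K) = Nat.card K ^ 4 := by
    change Nat.card (Fin 2 → Fin 2 → K) = _
    rw [Nat.card_fun, Nat.card_fun, Nat.card_fin, ← pow_mul]
  rw [← h5, h1, h2, h3, h4, mul_comm]

end CardSl2

section Count

variable {K : Type} [Field K] [Finite K] (p : ℕ) [Fact p.Prime] [CharP K p]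
  (rb : GQ →* Matrix (Fin 2) (Fin 2) K) (u₀ : Fin 2 → K) (q : Nat.Primes)

/-- the smooth local cocycles with values in `U1 u₀` -/
def Zso : AddSubgroup ↥(Sm.Z1 (rloc q) LevelClass.all (Rep.res (rloc q) (adRep p rb))) where
  carrier := {z | ∀ τ : Gloc q, adVal p (rb := rb) ((z : Gloc q → adRep p rb) τ) ∈ U1 u₀}
  add_mem' := fun {a b} ha hb τ => add_mem_U1 (ha τ) (hb τ)
  zero_mem' := fun τ => zero_mem_U1 u₀
  neg_mem' := fun {a} ha τ => neg_mem_U1 (ha τ)

/-- the elements of `ad⁰ρ̄` whose coboundary has values in `U1 u₀` -/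
def M1 : AddSubgroup (adRep p rb) where
  carrier := {m | ∀ τ : Gloc q,
    adVal p (rb := rb) ((adRep p rb).ρ (rloc q τ) m - m) ∈ U1 u₀}
  add_mem' := fun {a b} ha hb τ => by
    have e : (adRep p rb).ρ (rloc q τ) (a + b) - (a + b)
        = ((adRep p rb).ρ (rloc q τ) a - a) + ((adRep p rb).ρ (rloc q τ) b - b) := by
      rw [map_add]; abel
    rw [e]
    exact add_mem_U1 (ha τ) (hb τ)
  zero_mem' := fun τ => by
    rw [map_zero, sub_zero]
    exact zero_mem_U1 u₀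
  neg_mem' := fun {a} ha τ => by
    have e : (adRep p rb).ρ (rloc q τ) (-a) - (-a) = -((adRep p rb).ρ (rloc q τ) a - a) := by
      rw [map_neg]; abel
    rw [e]
    exact neg_mem_U1 (ha τ)


variable {p rb u₀ q}

/-- the hypothesis on `ρ̄` restricted to the local Galois group: upper triangular with respect to the
line `K u₀`, diagonal characters `χ̄_p z`, `z` with `z² = 1` -/
def IsSOLocal (p : ℕ) [Fact p.Prime] (rb : GQ →* Matrix (Fin 2) (Fin 2) K) (u₀ : Fin 2 → K)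
    (q : Nat.Primes) : Prop :=
  ∀ τ : Gloc q, ∃ z : K, z * z = 1 ∧
    rb (rloc q τ) *ᵥ u₀ = ((ExtCitation.cycloExp p (rloc q τ) : K) * z) • u₀ ∧
    ∀ v, ∃ t : K, rb (rloc q τ) *ᵥ v - z • v = t • u₀

theorem IsSOLocal.isTri (h : IsSOLocal p rb u₀ q) (τ : Gloc q) :
    ∃ z : K, z * z = 1 ∧ IsTri u₀ (rb (rloc q τ)) (rb (rloc q τ)⁻¹)
      ((ExtCitation.cycloExp p (rloc q τ) : K) * z) z := by
  obtain ⟨z, hz, h1, h2⟩ := h τ
  exact ⟨z, hz, ⟨rb_mul_inv rb _, rb_inv_mul rb _, h1, h2⟩⟩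

/-- the twisted homomorphism attached to a cocycle with values in `U1 u₀` -/
theorem par_mem_cycloCocycles (hu₀ : u₀ ≠ 0) {v₁ : Fin 2 → K} (h1 : dt u₀ v₁ = 1)
    (hD : IsSOLocal p rb u₀ q) (z : Zso p rb u₀ q) :
    (fun τ : Gloc q => par v₁ (adVal p (rb := rb) ((z.1 : Gloc q → adRep p rb) τ)))
      ∈ cycloCocycles K p q := by
  refine ⟨z.1.2.2.comp (fun X => par v₁ (adVal p (rb := rb) X)), fun s t => ?_⟩
  have hc := (mem_cocycles₁_iff _).1 z.1.2.1 s t
  obtain ⟨ζ, hζ, htri⟩ := hD.isTri s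
  have hconj := htri.conj_mem_U1 (v₁ := v₁) hζ rfl hu₀ h1 (z.2 t)
  simp only []
  rw [hc, adVal_add, par_add, add_comm]
  congr 1
  exact hconj.2

theorem par_injective (hu₀ : u₀ ≠ 0) {v₁ : Fin 2 → K} (h1 : dt u₀ v₁ = 1) (z z' : Zso p rb u₀ q)
    (h : ∀ τ : Gloc q, par v₁ (adVal p (rb := rb) ((z.1 : Gloc q → adRep p rb) τ))
      = par v₁ (adVal p (rb := rb) ((z'.1 : Gloc q → adRep p rb) τ))) : z = z' := by
  apply Subtype.ext
  apply Subtype.ext
  funext τ
  apply adVal_injective p (rb := rb)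
  exact eq_of_par_eq hu₀ h1 (z.2 τ) (z'.2 τ) (h τ)

/-- **Step 1**: `|Z¹(G_q, U¹)| ≤ |cycloCocycles|` -/
theorem card_Zso_le (hu₀ : u₀ ≠ 0) (hD : IsSOLocal p rb u₀ q)
    (hfin : (cycloCocycles K p q).Finite) :
    Finite (Zso p rb u₀ q) ∧ Nat.card (Zso p rb u₀ q) ≤ Nat.card (cycloCocycles K p q) := by
  obtain ⟨v₁, h1⟩ := exists_dt_eq_one hu₀
  haveI : Finite (cycloCocycles K p q) := hfin.to_subtype
  let Θ : Zso p rb u₀ q → cycloCocycles K p q := fun z =>
    ⟨_, par_mem_cycloCocycles hu₀ h1 hD z⟩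
  have hΘ : Function.Injective Θ := fun z z' h =>
    par_injective hu₀ h1 z z' (fun τ => congrFun (congrArg Subtype.val h) τ)
  exact ⟨Finite.of_injective Θ hΘ, Nat.card_le_card_of_injective Θ hΘ⟩


/-! #### Step 2: the class map -/

variable (p rb u₀ q)

/-- the class map on `Zso` -/
def clsZso : Zso p rb u₀ q →+ H1loc (adRep p rb) q :=
  ((Sm.H1π (rloc q) LevelClass.all (Rep.res (rloc q) (adRep p rb))).toAddMonoidHom).comp
    (Zso p rb u₀ q).subtype

theorem clsZso_apply (z : Zso p rb u₀ q) :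
    clsZso p rb u₀ q z = Sm.H1π (rloc q) LevelClass.all (Rep.res (rloc q) (adRep p rb)) z.1 := rfl

theorem card_Wso_eq : Nat.card (Wso p rb u₀ q) = Nat.card (clsZso p rb u₀ q).range := by
  apply Nat.card_congr
  refine Equiv.subtypeEquivRight (fun x => ?_)
  rw [mem_Wso, AddMonoidHom.mem_range]
  constructor
  · rintro ⟨z, hz, hU⟩
    exact ⟨⟨z, hU⟩, hz⟩
  · rintro ⟨z, hz⟩
    exact ⟨z.1, hz, z.2⟩

/-! #### Step 3: coboundaries -/

/-- the coboundary map `M1 → Zso` -/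
def cobZso (hsm : ∃ F₀ : FieldQ, FiniteDimensional ℚ F₀ ∧ ∀ s ∈ F₀.fixingSubgroup, rb s = 1) :
    M1 p rb u₀ q →+ Zso p rb u₀ q where
  toFun m := ⟨⟨(d₀₁ (Rep.res (rloc q) (adRep p rb))).hom m.1,
    coboundaries₁_le_cocycles₁ _ ⟨m.1, rfl⟩, by
      obtain ⟨F₀, hF₀, h⟩ := hsm
      refine ⟨F₀, hF₀, fun g s hs => ?_⟩
      rw [d₀₁_hom_apply, d₀₁_hom_apply]
      congr 1
      change (adRep p rb).ρ (rloc q (g * s)) m.1 = (adRep p rb).ρ (rloc q g) m.1
      rw [map_mul, map_mul, Module.End.mul_apply,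
        adRep_ρ_eq_one_of_rb_eq_one p rb (h _ hs), Module.End.one_apply]⟩, fun τ => by
      have := m.2 τ
      exact this⟩
  map_zero' := by
    apply Subtype.ext
    apply Subtype.ext
    exact map_zero _
  map_add' a b := by
    apply Subtype.ext
    apply Subtype.ext
    exact map_add _ _ _

variable (hsm : ∃ F₀ : FieldQ, FiniteDimensional ℚ F₀ ∧ ∀ s ∈ F₀.fixingSubgroup, rb s = 1)

theorem cobZso_apply (m : M1 p rb u₀ q) (τ : Gloc q) :
    (((cobZso p rb u₀ q hsm m).1 : Gloc q → adRep p rb) τ)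
      = (adRep p rb).ρ (rloc q τ) m.1 - m.1 := by
  change (d₀₁ (Rep.res (rloc q) (adRep p rb))).hom m.1 τ = _
  rw [d₀₁_hom_apply]
  rfl

theorem range_cobZso : (cobZso p rb u₀ q hsm).range = (clsZso p rb u₀ q).ker := by
  ext z
  rw [AddMonoidHom.mem_range, AddMonoidHom.mem_ker, clsZso_apply, Submodule.mkQ_apply,
    Submodule.Quotient.mk_eq_zero, Submodule.mem_comap]
  constructor
  · rintro ⟨m, rfl⟩
    exact ⟨⟨m.1, rfl⟩, (cobZso p rb u₀ q hsm m).1.2.2⟩
  · rintro ⟨⟨m, hm⟩, -⟩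
    have hm' : ∀ τ : Gloc q, (adRep p rb).ρ (rloc q τ) m - m = (z.1 : Gloc q → adRep p rb) τ := by
      intro τ
      have := congrFun hm τ
      rw [d₀₁_hom_apply] at this
      exact this
    refine ⟨⟨m, fun τ => ?_⟩, ?_⟩
    · rw [hm' τ]
      exact z.2 τ
    · apply Subtype.ext
      apply Subtype.ext
      exact hm

theorem card_ker_cobZso :
    Nat.card (cobZso p rb u₀ q hsm).ker = Nat.card (Main.H0loc (adRep p rb) q) := by
  apply Nat.card_congr
  refine
    { toFun := fun m => ⟨m.1.1, fun τ => ?_⟩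
      invFun := fun m => ⟨⟨m.1, fun τ => ?_⟩, ?_⟩
      left_inv := fun m => rfl
      right_inv := fun m => rfl }
  · have h1 := AddMonoidHom.mem_ker.mp m.2
    have h2 := congrArg (fun z : Zso p rb u₀ q => (z.1 : Gloc q → adRep p rb) τ) h1
    simp only [] at h2
    rw [cobZso_apply] at h2
    exact sub_eq_zero.mp h2
  · rw [m.2 τ, sub_self]
    exact zero_mem_U1 u₀
  · rw [AddMonoidHom.mem_ker]
    apply Subtype.ext
    apply Subtype.ext
    funext τ
    rw [cobZso_apply]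
    change (adRep p rb).ρ (rloc q τ) m.1 - m.1 = 0
    rw [m.2 τ, sub_self]

/-! #### Step 4: the Borel subalgebra -/

/-- `m ↦ dt u₀ (m u₀)` -/
def borelFun : adRep p rb →+ K where
  toFun m := dt u₀ (adVal p (rb := rb) m *ᵥ u₀)
  map_zero' := by
    have : adVal p (rb := rb) (0 : adRep p rb) = 0 := rfl
    rw [this, Matrix.zero_mulVec, dt_zero_right]
  map_add' a b := by
    rw [adVal_add, Matrix.add_mulVec, dt_add_right]

variable {p rb u₀ q}

theorem ker_borelFun_le (hu₀ : u₀ ≠ 0) (hD : IsSOLocal p rb u₀ q) :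
    (borelFun p rb u₀).ker ≤ M1 p rb u₀ q := by
  intro m hm τ
  obtain ⟨ζ, hζ, htri⟩ := hD.isTri τ
  have h1 : adVal p (rb := rb) ((adRep p rb).ρ (rloc q τ) m - m)
      = rb (rloc q τ) * adVal p m * rb (rloc q τ)⁻¹ - adVal p m := by
    rw [adVal_sub, adVal_ρ]
  rw [h1]
  exact htri.conj_sub_mem_U1 hζ hu₀ (trace_adVal p m) (AddMonoidHom.mem_ker.mp hm)

theorem card_sq_le_card_ker_borelFun :
    Nat.card K ^ 2 ≤ Nat.card (borelFun p rb u₀).ker := by
  haveI : Finite (adRep p rb) := adRep_finite p rb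
  have h1 := AddSubgroup.card_eq_card_quotient_mul_card_addSubgroup (borelFun p rb u₀).ker
  have h2 : Nat.card (adRep p rb ⧸ (borelFun p rb u₀).ker) = Nat.card (borelFun p rb u₀).range :=
    Nat.card_congr (QuotientAddGroup.quotientKerEquivRange (borelFun p rb u₀)).toEquiv
  have h3 : Nat.card (borelFun p rb u₀).range ≤ Nat.card K :=
    Nat.card_le_card_of_injective _ Subtype.val_injective
  have h4 : Nat.card (adRep p rb) * Nat.card K = Nat.card K ^ 4 := card_sl2_mul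
  have hK : 0 < Nat.card K := Nat.card_pos
  have h5 : Nat.card K ^ 4 ≤ Nat.card (borelFun p rb u₀).ker * Nat.card K * Nat.card K := by
    rw [← h4, h1, h2]
    exact Nat.mul_le_mul_right _ (by rw [mul_comm]; exact Nat.mul_le_mul_left _ h3)
  have h6 : Nat.card K ^ 2 * (Nat.card K * Nat.card K)
      ≤ Nat.card (borelFun p rb u₀).ker * (Nat.card K * Nat.card K) := by
    calc Nat.card K ^ 2 * (Nat.card K * Nat.card K) = Nat.card K ^ 4 := by ring
      _ ≤ Nat.card (borelFun p rb u₀).ker * Nat.card K * Nat.card K := h5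
      _ = Nat.card (borelFun p rb u₀).ker * (Nat.card K * Nat.card K) := by ring
  exact Nat.le_of_mul_le_mul_right h6 (Nat.mul_pos hK hK)

/-- **The count of the strict-ordinary local condition.** -/
theorem card_Wso_le (hu₀ : u₀ ≠ 0)
    (hsm : ∃ F₀ : FieldQ, FiniteDimensional ℚ F₀ ∧ ∀ s ∈ F₀.fixingSubgroup, rb s = 1)
    (hD : IsSOLocal p rb u₀ q)
    (hZ : (cycloCocycles K p q).Finite ∧ Nat.card (cycloCocycles K p q) ≤ Nat.card K ^ 3) :
    Nat.card (Wso p rb u₀ q) ≤ Nat.card (Main.H0loc (adRep p rb) q) * Nat.card K := by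
  haveI : Finite (adRep p rb) := adRep_finite p rb
  obtain ⟨hfinZ, hcardZ⟩ := card_Zso_le hu₀ hD hZ.1
  haveI := hfinZ
  have hZ3 : Nat.card (Zso p rb u₀ q) ≤ Nat.card K ^ 3 := hcardZ.trans hZ.2
  -- |Zso| = |Wso| * |ker cls|
  have e1 := AddSubgroup.card_eq_card_quotient_mul_card_addSubgroup (clsZso p rb u₀ q).ker
  have e2 : Nat.card (Zso p rb u₀ q ⧸ (clsZso p rb u₀ q).ker) = Nat.card (clsZso p rb u₀ q).range :=
    Nat.card_congr (QuotientAddGroup.quotientKerEquivRange (clsZso p rb u₀ q)).toEquiv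
  rw [e2, ← card_Wso_eq] at e1
  -- |M1| = |ker cls| * |H0loc|
  have f1 := AddSubgroup.card_eq_card_quotient_mul_card_addSubgroup (cobZso p rb u₀ q hsm).ker
  have f2 : Nat.card (M1 p rb u₀ q ⧸ (cobZso p rb u₀ q hsm).ker)
      = Nat.card (cobZso p rb u₀ q hsm).range :=
    Nat.card_congr (QuotientAddGroup.quotientKerEquivRange (cobZso p rb u₀ q hsm)).toEquiv
  rw [f2, range_cobZso, card_ker_cobZso] at f1
  -- |K|² ≤ |M1|
  have g1 : Nat.card K ^ 2 ≤ Nat.card (M1 p rb u₀ q) :=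
    (card_sq_le_card_ker_borelFun (p := p) (rb := rb) (u₀ := u₀)).trans
      (Nat.card_le_card_of_injective (AddSubgroup.inclusion (ker_borelFun_le hu₀ hD))
        (AddSubgroup.inclusion_injective _))
  set a := Nat.card (Wso p rb u₀ q)
  set c := Nat.card (clsZso p rb u₀ q).ker
  set h := Nat.card (Main.H0loc (adRep p rb) q)
  set κ := Nat.card K
  have hc : 0 < c := Nat.card_pos
  have hκ : 0 < κ := Nat.card_pos
  rw [e1] at hZ3
  rw [f1] at g1
  have key : a * (c * κ ^ 2) ≤ (h * κ) * (c * κ ^ 2) := by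
    calc a * (c * κ ^ 2) = (a * c) * κ ^ 2 := by ring
      _ ≤ κ ^ 3 * (c * h) := Nat.mul_le_mul hZ3 g1
      _ = (h * κ) * (c * κ ^ 2) := by ring
  exact Nat.le_of_mul_le_mul_right key (Nat.mul_pos hc (pow_pos hκ 2))


/-- the count with helper4's Kummer count over `𝔽_p` as input -/
theorem card_Wso_le' (hu₀ : u₀ ≠ 0)
    (hsm : ∃ F₀ : FieldQ, FiniteDimensional ℚ F₀ ∧ ∀ s ∈ F₀.fixingSubgroup, rb s = 1)
    (hD : IsSOLocal p rb u₀ q)
    (hZ0 : (cycloCocycles (ZMod p) p q).Finite ∧ Nat.card (cycloCocycles (ZMod p) p q) ≤ p ^ 3) :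
    Nat.card (Wso p rb u₀ q) ≤ Nat.card (Main.H0loc (adRep p rb) q) * Nat.card K :=
  card_Wso_le hu₀ hsm hD (card_cycloCocycles_le_of p q hZ0)

/-! ### Membership criterion -/

variable (p rb q)

/-- coboundaries as smooth local cocycles -/
def cobZ1 (hsm : ∃ F₀ : FieldQ, FiniteDimensional ℚ F₀ ∧ ∀ s ∈ F₀.fixingSubgroup, rb s = 1)
    (m : adRep p rb) : ↥(Sm.Z1 (rloc q) LevelClass.all (Rep.res (rloc q) (adRep p rb))) :=
  ⟨(d₀₁ (Rep.res (rloc q) (adRep p rb))).hom m, coboundaries₁_le_cocycles₁ _ ⟨m, rfl⟩, by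
    obtain ⟨F₀, hF₀, h⟩ := hsm
    refine ⟨F₀, hF₀, fun g s hs => ?_⟩
    rw [d₀₁_hom_apply, d₀₁_hom_apply]
    congr 1
    change (adRep p rb).ρ (rloc q (g * s)) m = (adRep p rb).ρ (rloc q g) m
    rw [map_mul, map_mul, Module.End.mul_apply,
      adRep_ρ_eq_one_of_rb_eq_one p rb (h _ hs), Module.End.one_apply]⟩

variable {p rb q}

theorem cobZ1_apply (hsm : ∃ F₀ : FieldQ, FiniteDimensional ℚ F₀ ∧ ∀ s ∈ F₀.fixingSubgroup, rb s = 1)
    (m : adRep p rb) (τ : Gloc q) :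
    ((cobZ1 p rb q hsm m : ↥(Sm.Z1 (rloc q) LevelClass.all (Rep.res (rloc q) (adRep p rb)))) :
      Gloc q → adRep p rb) τ = (adRep p rb).ρ (rloc q τ) m - m := by
  change (d₀₁ (Rep.res (rloc q) (adRep p rb))).hom m τ = _
  rw [d₀₁_hom_apply]
  rfl

theorem H1π_cobZ1 (hsm : ∃ F₀ : FieldQ, FiniteDimensional ℚ F₀ ∧ ∀ s ∈ F₀.fixingSubgroup, rb s = 1)
    (m : adRep p rb) :
    Sm.H1π (rloc q) LevelClass.all (Rep.res (rloc q) (adRep p rb)) (cobZ1 p rb q hsm m) = 0 := by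
  rw [Submodule.mkQ_apply, Submodule.Quotient.mk_eq_zero, Submodule.mem_comap]
  exact ⟨⟨m, rfl⟩, (cobZ1 p rb q hsm m).2.2⟩

/-- **Membership criterion for `Wso`**: a global unramified cocycle which on the local Galois group
differs from a coboundary (of a trace-zero matrix) by a cocycle with values in `U1 u₀`. -/
theorem loc1_adClass_mem_Wso {S : Finset Nat.Primes} {c : GQ → Matrix (Fin 2) (Fin 2) K}
    (hc : IsUnrCocycle S rb c)
    (hsm : ∃ F₀ : FieldQ, FiniteDimensional ℚ F₀ ∧ ∀ s ∈ F₀.fixingSubgroup, rb s = 1)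
    (m : Matrix (Fin 2) (Fin 2) K) (hm : m.trace = 0)
    (h : ∀ τ : Gloc q, c (rloc q τ) - (rb (rloc q τ) * m * rb (rloc q τ)⁻¹ - m) ∈ U1 u₀) :
    loc1 S (adRep p rb) q (adClass p hc) ∈ Wso p rb u₀ q := by
  let m' : adRep p rb := (⟨m, (mem_sl2_iff _).2 hm⟩ : sl2 K)
  let z0 : ↥(Sm.Z1 (rloc q) LevelClass.all (Rep.res (rloc q) (adRep p rb))) :=
    Sm.resZ1 (rloc q) (r := MonoidHom.id GQ) (r' := rloc q) (fun _ => rfl)
      (𝓛 := LevelClass.unr S) (𝓛' := LevelClass.all) (fun _ h => h.1) (adRep p rb)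
      ⟨_, toAd_mem_Z1 p hc⟩
  refine ⟨z0 - cobZ1 p rb q hsm m', ?_, fun τ => ?_⟩
  · rw [map_sub, H1π_cobZ1, sub_zero, loc1_adClass]
  · have e : ((z0 - cobZ1 p rb q hsm m' :
        ↥(Sm.Z1 (rloc q) LevelClass.all (Rep.res (rloc q) (adRep p rb)))) : Gloc q → adRep p rb) τ
        = (z0 : Gloc q → adRep p rb) τ - (cobZ1 p rb q hsm m' : Gloc q → adRep p rb) τ := rfl
    rw [e, cobZ1_apply, adVal_sub, adVal_sub, adVal_ρ]
    exact h τ

end Count

end Fermat.Agent.S56lib.Loc
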