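/-
S56 marathon, block "local conditions" (helper5), file 4.
**The count of unramified classes**: `|Wunr M q| ≤ |H⁰(G_q, M)|` for a finite `M`.
* `card_le_card_invariants` : abstract form (a group `G = ⋃ φ ^ k * I`, cocycles vanishing on `I`);
* `exists_frob_generates_loc` : the local Galois group at `q` is `⋃ φ ^ k * IlocF q F` for every finite
  normal level `F` (from `(K)` = `Loc.exists_frob_generates` and lead's `exists_local_lift`);
* `card_Wunr_le`.
-/
import Mathlib
import Fermat.Agent.S56lib.Loc.Frob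
import Fermat.Agent.S56lib.Loc.Defs

set_option autoImplicit false
set_option linter.unusedSectionVars false
set_option linter.style.haveILetI false

noncomputable section

namespace Fermat.Agent.S56lib.Loc

open Fermat.Agent.S55lib Fermat.Agent.S56lib.TWSel groupCohomology ExtCitation
open scoped Pointwise

section Abstract

variable {k : Type*} [CommRing k] {G : Type*} [Group G] {A : Type*} [AddCommGroup A] [Module k A]
  (ρ : Representation k G A)

/-- a cocycle vanishing on `I` and at `φ` vanishes identically when `G = ⋃ φ ^ k * I` -/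
theorem eq_zero_of_vanish (I : Set G) (φ : G)
    (hgen : ∀ g : G, ∃ k : ℕ, ∃ i ∈ I, g = φ ^ k * i)
    (z : G → A) (hz : ∀ g h, z (g * h) = z g + ρ g (z h))
    (hzI : ∀ i ∈ I, z i = 0) (hzφ : z φ = 0) (g : G) : z g = 0 := by
  have hpow : ∀ k : ℕ, z (φ ^ k) = 0 := by
    intro k
    induction k with
    | zero =>
      have := hz 1 1
      rw [mul_one, map_one, Module.End.one_apply] at this
      rw [pow_zero]
      exact left_eq_add.mp this
    | succ k ih => rw [pow_succ, hz, ih, hzφ, map_zero, add_zero]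
  obtain ⟨k, i, hi, rfl⟩ := hgen g
  rw [hz, hpow, hzI i hi, map_zero, add_zero]

/-- the `I`-invariants -/
def invOn (I : Set G) : Submodule k A where
  carrier := {a | ∀ i ∈ I, ρ i a = a}
  add_mem' := fun {a b} ha hb i hi => by rw [map_add, ha i hi, hb i hi]
  zero_mem' := fun i _ => map_zero _
  smul_mem' := fun c a ha i hi => by rw [map_smul, ha i hi]

theorem mem_invOn (I : Set G) (a : A) : a ∈ invOn ρ I ↔ ∀ i ∈ I, ρ i a = a := Iff.rfl

/-- `|N / T N| = |ker T|` for an endomorphism of a finite abelian group -/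
theorem card_quotient_range_eq_card_ker {N : Type*} [AddCommGroup N] [Finite N] (e : N →+ N) :
    Nat.card (N ⧸ e.range) = Nat.card e.ker := by
  have h1 := AddSubgroup.card_eq_card_quotient_mul_card_addSubgroup e.range
  have h2 := AddSubgroup.card_eq_card_quotient_mul_card_addSubgroup e.ker
  have h3 : Nat.card (N ⧸ e.ker) = Nat.card e.range :=
    Nat.card_congr (QuotientAddGroup.quotientKerEquivRange e).toEquiv
  rw [h3] at h2
  have hpos : 0 < Nat.card e.range := Nat.card_pos
  have : Nat.card (N ⧸ e.range) * Nat.card e.range = Nat.card e.range * Nat.card e.ker := by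
    rw [← h1, ← h2]
  rw [mul_comm] at this
  exact Nat.eq_of_mul_eq_mul_left hpos this

/-- **The count of unramified classes, abstract form.**  `G = ⋃ φ ^ k * I` with `I` stable under
conjugation by `φ⁻¹`; a family of cocycles vanishing on `I`, pairwise not cohomologous, has at most
`|A^G|` members. -/
theorem card_le_card_invariants [Finite A] (I : Set G) (φ : G)
    (hgen : ∀ g : G, ∃ k : ℕ, ∃ i ∈ I, g = φ ^ k * i)
    (hnorm : ∀ i ∈ I, φ⁻¹ * i * φ ∈ I)
    {T : Type*} (z : T → G → A) (hz : ∀ t g h, z t (g * h) = z t g + ρ g (z t h))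
    (hzI : ∀ t, ∀ i ∈ I, z t i = 0)
    (hinj : ∀ t t', (∃ m : A, ∀ g, z t g - z t' g = ρ g m - m) → t = t') :
    Nat.card T ≤ Nat.card ρ.invariants := by
  -- `φ` acts on the `I`-invariants
  have hφN : ∀ a ∈ invOn ρ I, ρ φ a ∈ invOn ρ I := by
    intro a ha i hi
    have h1 : i * φ = φ * (φ⁻¹ * i * φ) := by group
    rw [← Module.End.mul_apply, ← map_mul, h1, map_mul, Module.End.mul_apply, ha _ (hnorm i hi)]
  let e : invOn ρ I →+ invOn ρ I :=
    { toFun := fun a => ⟨ρ φ a.1 - a.1, (invOn ρ I).sub_mem (hφN a.1 a.2) a.2⟩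
      map_zero' := Subtype.ext (by simp)
      map_add' := fun a b => Subtype.ext (by simp only [Submodule.coe_add, map_add]; abel) }
  -- values at `φ` lie in the `I`-invariants
  have hzφ : ∀ t, z t φ ∈ invOn ρ I := by
    intro t i hi
    have h1 : z t (i * φ) = ρ i (z t φ) := by rw [hz, hzI t i hi, zero_add]
    have h2 : z t (i * φ) = z t φ := by
      have h3 : i * φ = φ * (φ⁻¹ * i * φ) := by group
      rw [h3, hz, hzI t _ (hnorm i hi), map_zero, add_zero]
    rw [← h1, h2]
  let f : T → (invOn ρ I) ⧸ e.range := fun t => QuotientAddGroup.mk ⟨z t φ, hzφ t⟩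
  have hf : Function.Injective f := by
    intro t t' htt
    apply hinj
    rw [QuotientAddGroup.eq] at htt
    obtain ⟨n, hn⟩ := htt
    have hn' : ρ φ n.1 - n.1 = -(z t φ) + z t' φ := congrArg Subtype.val hn
    refine ⟨-n.1, fun g => ?_⟩
    -- the cocycle `z t - z t' - d(-n)` vanishes on `I` and at `φ`
    have hzero := eq_zero_of_vanish ρ I φ hgen (fun g => z t g - z t' g - (ρ g (-n.1) - (-n.1)))
      (fun g h => by
        simp only [hz, map_sub, map_neg, ← Module.End.mul_apply, ← map_mul]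
        abel)
      (fun i hi => by
        simp only [hzI t i hi, hzI t' i hi, map_neg, n.2 i hi]
        abel)
      (by
        simp only [map_neg]
        rw [sub_eq_iff_eq_add] at hn'
        rw [hn']
        abel) g
    exact sub_eq_zero.mp hzero
  haveI : Finite (invOn ρ I) := Finite.of_injective _ Subtype.val_injective
  refine (Nat.card_le_card_of_injective f hf).trans ?_
  rw [card_quotient_range_eq_card_ker e]
  -- the kernel of `φ - 1` on the `I`-invariants consists of `G`-invariants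
  refine Nat.card_le_card_of_injective
    (fun a : e.ker => (⟨a.1.1, by
      have ha : ρ φ a.1.1 - a.1.1 = 0 := congrArg Subtype.val (AddMonoidHom.mem_ker.mp a.2)
      have ha' : ρ φ a.1.1 = a.1.1 := sub_eq_zero.mp ha
      have hpow : ∀ k : ℕ, ρ (φ ^ k) a.1.1 = a.1.1 := by
        intro k
        induction k with
        | zero => simp
        | succ k ih => rw [pow_succ, map_mul, Module.End.mul_apply, ha', ih]
      rw [Representation.mem_invariants]
      intro g
      obtain ⟨k, i, hi, rfl⟩ := hgen g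
      rw [map_mul, Module.End.mul_apply, a.1.2 i hi, hpow]⟩ : ρ.invariants))
    (fun a b hab => by
      have h := congrArg (fun x : ρ.invariants => (x : A)) hab
      exact Subtype.ext (Subtype.ext h))

end Abstract

/-! ### The local Galois group is generated by inertia and a Frobenius, level by level -/

section LocalGen

variable (q : Nat.Primes) (F : FieldQ) [FiniteDimensional ℚ F] [Normal ℚ F]

theorem fixingSubgroup_normal' : (F.fixingSubgroup).Normal := by
  have h1 : IsGalois ℚ F := ⟨⟩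
  have h2 : IsGalois ℚ Qbar := ⟨⟩
  exact @IsGalois.fixingSubgroup_normal_of_isGalois ℚ Qbar _ _ _ F h2 h1

theorem rloc_mem_decomp (τ : Gloc q) : rloc q τ ∈ (primeLocalPlace q).decompositionSubgroup ℚ := by
  haveI : Fact (q : ℕ).Prime := ⟨q.2⟩
  exact localGaloisToGlobal_mem_decompositionSubgroup (q : ℕ) τ

/-- `IlocF q F` is stable under conjugation -/
theorem conj_mem_IlocF (g : Gloc q) {i : Gloc q} (hi : i ∈ IlocF q F) :
    g⁻¹ * i * g ∈ IlocF q F := by
  obtain ⟨ι, hι, hiN⟩ := hi
  have hN := fixingSubgroup_normal' F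
  have hd := rloc_mem_decomp q g
  have hdinv : (rloc q g)⁻¹ ∈ (primeLocalPlace q).decompositionSubgroup ℚ := inv_mem_decomp hd
  refine ⟨(rloc q g)⁻¹ * ι * (rloc q g), ?_, ?_⟩
  · have h1 := conj_mem_inertia (g := (rloc q g)⁻¹) hι
    rwa [mem_decomp_iff.1 hdinv, inv_inv] at h1
  · have h2 := hN.conj_mem _ hiN (rloc q g)⁻¹
    have e : ((rloc q g)⁻¹ * ι * rloc q g)⁻¹ * rloc q (g⁻¹ * i * g)
        = (rloc q g)⁻¹ * (ι⁻¹ * rloc q i) * (rloc q g)⁻¹⁻¹ := by
      rw [map_mul, map_mul, map_inv]
      group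
    rw [e]
    exact h2

/-- **the local Galois group is `⋃ φ ^ k * IlocF q F`** -/
theorem exists_frob_generates_loc :
    ∃ φ : Gloc q, ∀ τ : Gloc q, ∃ k : ℕ, ∃ i ∈ IlocF q F, τ = φ ^ k * i := by
  haveI : Fact (q : ℕ).Prime := ⟨q.2⟩
  haveI : IsGalois ℚ F := ⟨⟩
  have hN := fixingSubgroup_normal' F
  obtain ⟨φ₀, hφ₀D, hgen⟩ := exists_frob_generates q.2 (primeLocalPlace_liesOverPrime q) F
  obtain ⟨φ, hφ⟩ : ∃ φ : Gloc q, (rloc q φ)⁻¹ * φ₀ ∈ F.fixingSubgroup :=
    exists_local_lift (q : ℕ) hφ₀D F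
  refine ⟨φ, fun τ => ?_⟩
  obtain ⟨k, ι, hι, hk⟩ := hgen (rloc q τ) (rloc_mem_decomp q τ)
  refine ⟨k, (φ ^ k)⁻¹ * τ, ⟨ι, hι, ?_⟩, by group⟩
  -- computation in the quotient group
  have e1 : ((rloc q φ : GQ) : GQ ⧸ F.fixingSubgroup) = ((φ₀ : GQ) : GQ ⧸ F.fixingSubgroup) :=
    QuotientGroup.eq.mpr hφ
  have e2 : ((φ₀ ^ k * ι : GQ) : GQ ⧸ F.fixingSubgroup)
      = ((rloc q τ : GQ) : GQ ⧸ F.fixingSubgroup) := QuotientGroup.eq.mpr hk
  rw [← QuotientGroup.eq_one_iff]
  rw [map_mul, map_inv, map_pow, QuotientGroup.mk_mul, QuotientGroup.mk_inv, QuotientGroup.mk_mul,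
    QuotientGroup.mk_inv, QuotientGroup.mk_pow, e1, ← e2, QuotientGroup.mk_mul,
    QuotientGroup.mk_pow]
  group

end LocalGen

/-! ### The count -/

section Count

variable {k : Type} [CommRing k] (M : Rep.{0} k GQ) (q : Nat.Primes)

/-- **`|H¹_ur(G_q, M)| ≤ |H⁰(G_q, M)|`** -/
theorem card_Wunr_le [Finite M] [Finite (H1loc M q)] :
    Nat.card (Wunr M q) ≤ Nat.card (Main.H0loc M q) := by
  classical
  have hW : ∀ x : Wunr M q, ∃ z : ↥(Sm.Z1 (rloc q) LevelClass.all (Rep.res (rloc q) M)),
      Sm.H1π (rloc q) LevelClass.all (Rep.res (rloc q) M) z = x.1 ∧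
        ∃ (m : M) (F : FieldQ), FiniteDimensional ℚ F ∧
          ∀ τ ∈ IlocF q F, (z : Gloc q → M) τ = M.ρ (rloc q τ) m - m := fun x => x.2
  choose z hzx m F hF hvan using hW
  -- a common normal level
  haveI : ∀ x, FiniteDimensional ℚ (F x) := hF
  have hF₁ : FiniteDimensional ℚ (⨆ x, F x : FieldQ) :=
    IntermediateField.finiteDimensional_iSup_of_finite
  obtain ⟨Fs, hFs, hle, hFsn⟩ := LevelClass.all.galoisClosure (⨆ x, F x) hF₁
  haveI : FiniteDimensional ℚ Fs := hFs
  haveI : Normal ℚ Fs := hFsn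
  obtain ⟨φ, hgen⟩ := exists_frob_generates_loc q Fs
  have hsub : ∀ x, IlocF q Fs ⊆ IlocF q (F x) := fun x =>
    IlocF_anti q ((le_iSup F x).trans hle)
  -- the representation of the local group
  let ρ' : Representation k (Gloc q) M := M.ρ.comp (rloc q)
  have hcoc : ∀ x (g h : Gloc q), (z x : Gloc q → M) (g * h)
      = (z x : Gloc q → M) g + ρ' g ((z x : Gloc q → M) h) := by
    intro x g h
    have := (mem_cocycles₁_iff _).1 (z x).2.1 g h
    rw [this, add_comm]
  have key := card_le_card_invariants ρ' (IlocF q Fs) φ hgen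
    (fun i hi => conj_mem_IlocF q Fs φ hi)
    (fun x τ => (z x : Gloc q → M) τ - (ρ' τ (m x) - m x))
    (fun x g h => by
      change (z x : Gloc q → M) (g * h) - (ρ' (g * h) (m x) - m x)
        = (z x : Gloc q → M) g - (ρ' g (m x) - m x)
          + ρ' g ((z x : Gloc q → M) h - (ρ' h (m x) - m x))
      rw [hcoc, map_sub, map_sub, map_mul, Module.End.mul_apply]
      abel)
    (fun x i hi => by
      change (z x : Gloc q → M) i - (ρ' i (m x) - m x) = 0
      rw [hvan x i (hsub x hi)]
      exact sub_self _)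
    (fun x y ⟨m', hm'⟩ => by
      apply Subtype.ext
      rw [← hzx x, ← hzx y]
      rw [Submodule.mkQ_apply, Submodule.mkQ_apply, Submodule.Quotient.eq, Submodule.mem_comap]
      refine ⟨⟨m' + m x - m y, ?_⟩, (z x - z y).2.2⟩
      funext g
      rw [d₀₁_hom_apply]
      have h1 : (z x : Gloc q → M) g - (ρ' g (m x) - m x)
          - ((z y : Gloc q → M) g - (ρ' g (m y) - m y)) = ρ' g m' - m' := hm' g
      change (Rep.res (rloc q) M).ρ g (m' + m x - m y) - (m' + m x - m y)
        = (z x : Gloc q → M) g - (z y : Gloc q → M) g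
      have e : (Rep.res (rloc q) M).ρ g = ρ' g := rfl
      rw [e, map_sub, map_add]
      have h2 : ρ' g m' = (z x : Gloc q → M) g - (ρ' g (m x) - m x)
          - ((z y : Gloc q → M) g - (ρ' g (m y) - m y)) + m' := by
        rw [h1]; abel
      rw [h2]
      abel)
  refine key.trans (le_of_eq ?_)
  rw [Main.H0loc_eq_invariants]

end Count

end Fermat.Agent.S56lib.Loc
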