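/-
S56lib / Loc / IrrFront (helper5).  The front of the irreducible case of the flat count at `p`
(helper3's #2086):

* `Flat.exists_tame_field_of_irr` (I-front): an irreducible `r : Γ → GL₂(k)` (with split
  characteristic polynomials) trivial on `Γ_{L₀}` is trivial on `Γ_K` for a tame Galois `K ≤ L₀`
  containing `ζ_p`.
(The companion (I-mid) `Flat.exists_diag_antidiag` is helper8's `PT9/IMid.lean`.)
-/
import Mathlib
import Fermat.Agent.S56lib.TW.IrrAlg
import Fermat.Agent.S56lib.PT9a.TameStruct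

set_option autoImplicit false
set_option linter.unusedSectionVars false
set_option linter.style.haveILetI false

open scoped NormedField Valued NNReal

noncomputable section

namespace Fermat.Agent.S56lib.Flat

open Polynomial Matrix Fermat.Agent.S56lib.Kum Fermat.Agent.S55lib Fermat.Agent.S55lib.LocalUnr

variable {p : ℕ} [hp : Fact p.Prime]

local notation "Γp" => (PadicAlgCl p ≃ₐ[ℚ_[p]] PadicAlgCl p)

/-! ### The mod `p` cyclotomic character of `Γ` -/

section Cyc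

variable {ζ : PadicAlgCl p} (hζ : IsPrimitiveRoot ζ p)

/-- the mod `p` cyclotomic character of `Γ`, relative to `ζ` -/
def cycAutΓ : Γp →* (ZMod p)ˣ :=
  haveI : NeZero p := ⟨hp.out.ne_zero⟩
  hζ.autToPow ℚ_[p]

theorem cycAutΓ_spec (g : Γp) : g ζ = ζ ^ ((cycAutΓ hζ g : (ZMod p)ˣ) : ZMod p).val := by
  haveI : NeZero p := ⟨hp.out.ne_zero⟩
  exact (IsPrimitiveRoot.autToPow_spec ℚ_[p] hζ g).symm

theorem cycAutΓ_eq_one_iff (g : Γp) : cycAutΓ hζ g = 1 ↔ g ζ = ζ := by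
  haveI : NeZero p := ⟨hp.out.ne_zero⟩
  have h1 : (1 : ZMod p).val = 1 := by
    rw [ZMod.val_one_eq_one_mod, Nat.mod_eq_of_lt hp.out.one_lt]
  constructor
  · intro h
    rw [cycAutΓ_spec hζ g, h, Units.val_one, h1, pow_one]
  · intro h
    apply Units.ext
    apply ZMod.val_injective
    rw [Units.val_one, h1]
    apply hζ.pow_inj (ZMod.val_lt _) hp.out.one_lt
    rw [← cycAutΓ_spec hζ g, h, pow_one]

theorem cycAutΓ_pow (g : Γp) : cycAutΓ hζ g ^ (p - 1) = 1 :=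
  ZMod.units_pow_card_sub_one_eq_one p _

end Cyc

/-! ### (I-front) -/

section Front

variable {k : Type*} [Field k] [Finite k] [CharP k p]

omit [Finite k] in
theorem prime_dvd_card_of_charP (k : Type*) [Field k] [Finite k] [CharP k p] : p ∣ Nat.card k := by
  classical
  haveI : Fintype k := Fintype.ofFinite k
  obtain ⟨n, -, hn⟩ := FiniteField.card k p
  rw [Nat.card_eq_fintype_card, hn]
  exact dvd_pow_self p n.ne_zero

/-- **(I-front)** -/
theorem exists_tame_field_of_irr (hp2 : p ≠ 2) (r : Γp →* Matrix (Fin 2) (Fin 2) k)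
    (hsplit : ∀ g, ∃ α β : k, (r g).charpoly = (X - C α) * (X - C β))
    (hirr : ∀ v : Fin 2 → k, v ≠ 0 → ∃ g, ∀ c : k, r g *ᵥ v ≠ c • v)
    (L₀ : IntermediateField ℚ_[p] (PadicAlgCl p)) [FiniteDimensional ℚ_[p] L₀] [Normal ℚ_[p] L₀]
    (hr : ∀ g ∈ L₀.fixingSubgroup, r g = 1) {ζ : PadicAlgCl p} (hζ : IsPrimitiveRoot ζ p)
    (hζL : ζ ∈ L₀) :
    ∃ K : IntermediateField ℚ_[p] (PadicAlgCl p), ∃ (_ : FiniteDimensional ℚ_[p] K)
      (_ : Normal ℚ_[p] K), K ≤ L₀ ∧ ¬ p ∣ Module.finrank ℚ_[p] K ∧ ζ ∈ K ∧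
      ∀ g ∈ K.fixingSubgroup, r g = 1 := by
  classical
  -- the tame structure relative to `L₀` and the exponent of `r(Γ)`
  obtain ⟨W, I, τ, φ, hWn, hIn, hWI, hLW, hWp, hτ, hτe, hI, hφ⟩ := PT9a.exists_tame_structure L₀
  have hW : ∀ w ∈ W, ∃ n : ℕ, r w ^ (p ^ n) = 1 := by
    intro w hw
    obtain ⟨n, hn⟩ := hWp w hw
    exact ⟨n, by rw [← map_pow]; exact hr _ hn⟩
  obtain ⟨-, -, -, -, -, -, -, -, -, -, hexp⟩ :=
    TW.irr_alg p hp2 r hsplit hirr W I hWI hW τ φ hτ hτe hI hφ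
  -- the homomorphism cutting out `K`
  let ψ : Γp →* (Matrix (Fin 2) (Fin 2) k)ˣ × (ZMod p)ˣ := r.toHomUnits.prod (cycAutΓ hζ)
  have hψ1 : ∀ g, ψ g = 1 ↔ r g = 1 ∧ g ζ = ζ := by
    intro g
    rw [Prod.ext_iff, ← cycAutΓ_eq_one_iff hζ g]
    constructor
    · rintro ⟨h1, h2⟩
      exact ⟨congrArg Units.val h1, h2⟩
    · rintro ⟨h1, h2⟩
      exact ⟨Units.ext h1, h2⟩
  have hL : L₀.fixingSubgroup ≤ ψ.ker := by
    intro g hg
    rw [MonoidHom.mem_ker, hψ1]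
    exact ⟨hr g hg, (IntermediateField.mem_fixingSubgroup_iff L₀ g).1 hg ζ hζL⟩
  obtain ⟨K, hKL, hKn, hKfix, hKdeg⟩ := PT9a.exists_fixedField_of_ker ψ L₀ hL
  have hKfd : FiniteDimensional ℚ_[p] K :=
    FiniteDimensional.of_injective (IntermediateField.inclusion hKL).toLinearMap
      (IntermediateField.inclusion_injective hKL)
  have hker : ∀ g ∈ K.fixingSubgroup, r g = 1 ∧ g ζ = ζ := by
    intro g hg
    rw [hKfix, MonoidHom.mem_ker] at hg
    exact (hψ1 g).1 hg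
  refine ⟨K, hKfd, hKn, hKL, ?_, Kum.mem_of_fixed K (fun g hg => (hker g hg).2),
    fun g hg => (hker g hg).1⟩
  -- the degree is prime to `p`
  rw [hKdeg]
  intro hdvd
  obtain ⟨x, hx⟩ := exists_prime_orderOf_dvd_card' (G := ψ.range) p hdvd
  obtain ⟨⟨_, g, rfl⟩, rfl⟩ : ∃ y : ψ.range, y = x := ⟨x, rfl⟩
  have hkill : (ψ g) ^ (2 * (Nat.card k - 1) * (p - 1)) = 1 := by
    rw [← map_pow, hψ1, map_pow, pow_mul, hexp g, one_pow]
    refine ⟨rfl, ?_⟩
    rw [← cycAutΓ_eq_one_iff hζ, map_pow, mul_comm, pow_mul, cycAutΓ_pow, one_pow]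
  have hord : orderOf (⟨ψ g, g, rfl⟩ : ψ.range) ∣ 2 * (Nat.card k - 1) * (p - 1) := by
    apply orderOf_dvd_of_pow_eq_one
    apply Subtype.ext
    rw [Subgroup.coe_pow]
    exact hkill
  rw [hx] at hord
  have hp1 : ¬ p ∣ p - 1 := fun h =>
    absurd (Nat.le_of_dvd (Nat.sub_pos_of_lt hp.out.one_lt) h) (by have := hp.out.one_lt; omega)
  have hp2' : ¬ p ∣ 2 := fun h => hp2 ((Nat.prime_dvd_prime_iff_eq hp.out Nat.prime_two).1 h)
  have hpk : ¬ p ∣ Nat.card k - 1 := by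
    intro h
    have h3 : p ∣ Nat.card k := prime_dvd_card_of_charP k
    have h4 : 1 ≤ Nat.card k := Nat.card_pos
    have h5 : p ∣ 1 := by
      have := Nat.dvd_sub h3 h
      rwa [Nat.sub_sub_self h4] at this
    exact hp.out.one_lt.ne' (Nat.dvd_one.1 h5)
  rcases (Nat.Prime.dvd_mul hp.out).1 hord with h | h
  · rcases (Nat.Prime.dvd_mul hp.out).1 h with h | h
    · exact hp2' h
    · exact hpk h
  · exact hp1 h

end Front

end Fermat.Agent.S56lib.Flat
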