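/-
S56 marathon, block "local conditions" (helper5), file 2.
**The decomposition group modulo inertia is generated by a Frobenius, level by level** (`(K)`):
for a place `P` of `ℚ̄` over a prime `q` and a finite normal level `F` there is `φ ∈ D_P` such that
every `σ ∈ D_P` is of the form `φ ^ k * ι * h` with `ι ∈ I_P`, `h ∈ Gal(ℚ̄/F)`.

Proof: Mathlib's `Ideal.Quotient.stabilizerHom_surjective_of_profinite` for the closed subgroup
`Gal(ℚ̄/F)` acting on `ℤ̄` (the stabiliser of the prime surjects onto the automorphisms of the residue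
field over the residue field of `F`), and every endomorphism of a finite field is a power of the
Frobenius.
-/
import Mathlib
import Fermat.Agent.S56lib.TWSel.Places

set_option autoImplicit false
set_option linter.unusedSectionVars false
set_option linter.style.haveILetI false

noncomputable section

namespace Fermat.Agent.S56lib.Loc

open Fermat.Agent.Helper5 Fermat.Agent.S56lib.TWSel NumberField
open scoped Pointwise

/-! ### Lifting automorphisms of the residue field from a closed subgroup -/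

section Lift

variable (H : Subgroup GQ)

/-- the subalgebra of `H`-fixed elements of `ℤ̄` -/
abbrev fixedZ : Subalgebra ℤ Zbar := FixedPoints.subalgebra ℤ Zbar H

instance smulComm_fixedZ : SMulCommClass H (fixedZ H) Zbar where
  smul_comm h a b := by
    change h • ((a : Zbar) * b) = (a : Zbar) * h • b
    rw [smul_mul', a.2 h]

instance isInvariant_fixedZ : Algebra.IsInvariant (fixedZ H) Zbar H where
  isInvariant b hb := ⟨⟨b, hb⟩, rfl⟩

/-- an element `ψ` of the stabiliser of `Q` which acts trivially modulo `Q` on the `H`-fixed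
integers agrees modulo `Q` with an element of `H` (`H` closed). -/
theorem exists_lift_of_fixes (hH : IsClosed (H : Set GQ)) (Q : Ideal Zbar) [Q.IsPrime] (ψ : GQ)
    (hψQ : ψ • Q = Q)
    (hψ : ∀ a : Zbar, (∀ h : H, h • a = a) → ψ • a - a ∈ Q) :
    ∃ h : GQ, h ∈ H ∧ h • Q = Q ∧ ∀ b : Zbar, h • b - ψ • b ∈ Q := by
  haveI : CompactSpace H := isCompact_iff_compactSpace.mp hH.isCompact
  let e0 : (Zbar ⧸ Q) ≃ₐ[ℤ ⧸ Q.under ℤ] (Zbar ⧸ Q) :=
    Ideal.Quotient.stabilizerHom Q (Q.under ℤ) GQ ⟨ψ, hψQ⟩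
  have he0 : ∀ b : Zbar, e0 (Ideal.Quotient.mk Q b) = Ideal.Quotient.mk Q (ψ • b) := fun b => rfl
  let e1 : (Zbar ⧸ Q) ≃ₐ[fixedZ H ⧸ Q.under (fixedZ H)] (Zbar ⧸ Q) :=
    AlgEquiv.ofRingEquiv (f := e0.toRingEquiv) (by
      intro x
      obtain ⟨a, rfl⟩ := Ideal.Quotient.mk_surjective x
      change e0 (Ideal.Quotient.mk Q (a : Zbar)) = Ideal.Quotient.mk Q (a : Zbar)
      rw [he0, Ideal.Quotient.eq]
      exact hψ a a.2)
  obtain ⟨⟨h, hhQ⟩, hh⟩ := Ideal.Quotient.stabilizerHom_surjective_of_profinite (G := H)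
    (Q.under (fixedZ H)) Q e1
  refine ⟨h.1, h.2, hhQ, fun b => ?_⟩
  have h1 := congrArg (fun f => f (Ideal.Quotient.mk Q b)) hh
  simp only [Ideal.Quotient.stabilizerHom_apply] at h1
  have h2 : e1 (Ideal.Quotient.mk Q b) = Ideal.Quotient.mk Q (ψ • b) := he0 b
  rw [h2, Ideal.Quotient.eq] at h1
  exact h1

end Lift

/-! ### Endomorphisms of finite fields -/

section FiniteField

/-- every endomorphism of a finite field of characteristic `q` is a power of the Frobenius -/
theorem exists_pow_eq_of_ringHom (q : ℕ) [Fact q.Prime] (L : Type*) [Field L] [Finite L]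
    [CharP L q] (f : L →+* L) : ∃ k : ℕ, ∀ x : L, f x = x ^ (q ^ k) := by
  letI : Algebra (ZMod q) L := ZMod.algebra L q
  let f' : L →ₐ[ZMod q] L :=
    { f with
      commutes' := fun r => by
        have := RingHom.ext_zmod (f.comp (algebraMap (ZMod q) L)) (algebraMap (ZMod q) L)
        exact congrArg (fun g => g r) this }
  obtain ⟨n, hn⟩ := (FiniteField.bijective_frobeniusAlgHom_pow (ZMod q) L).2 f'
  refine ⟨n.1, fun x => ?_⟩
  have h1 : f x = f' x := rfl
  rw [h1, ← hn]
  simp only [AlgHom.coe_pow, FiniteField.coe_frobeniusAlgHom, pow_iterate, ZMod.card]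

variable (H : Subgroup GQ)

/-- an element of the stabiliser of `Q` normalising `H` acts on the `H`-fixed integers modulo `Q`
as a power of the Frobenius, when their residue ring is finite. -/
theorem exists_pow_frob_on_fixed (q : ℕ) [Fact q.Prime] (Q : Ideal Zbar) [Q.IsMaximal]
    (hqQ : (q : Zbar) ∈ Q)
    (hfin : Finite (fixedZ H ⧸ Q.under (fixedZ H))) (σ : GQ) (hσQ : σ • Q = Q)
    (hσH : ∀ h ∈ H, σ⁻¹ * h * σ ∈ H) :
    ∃ k : ℕ, ∀ a : fixedZ H, σ • (a : Zbar) - (a : Zbar) ^ (q ^ k) ∈ Q := by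
  haveI : Algebra.IsIntegral (fixedZ H) Zbar := Algebra.IsIntegral.tower_top (R := ℤ)
  haveI hmax : (Q.under (fixedZ H)).IsMaximal :=
    Ideal.isMaximal_comap_of_isIntegral_of_isMaximal Q
  letI : Field (fixedZ H ⧸ Q.under (fixedZ H)) := Ideal.Quotient.field _
  haveI : CharP (fixedZ H ⧸ Q.under (fixedZ H)) q := by
    have h0 : ((q : ℕ) : fixedZ H ⧸ Q.under (fixedZ H)) = 0 := by
      rw [← map_natCast (Ideal.Quotient.mk (Q.under (fixedZ H))) q,
        Ideal.Quotient.eq_zero_iff_mem, Ideal.mem_comap, map_natCast]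
      exact hqQ
    apply ringChar.of_eq
    have hdvd : ringChar (fixedZ H ⧸ Q.under (fixedZ H)) ∣ q := (ringChar.spec _ _).mp h0
    rcases (Nat.dvd_prime (Fact.out : q.Prime)).mp hdvd with h1 | h1
    · exact absurd h1 (CharP.ringChar_ne_one)
    · exact h1
  -- the action of `σ` on the fixed subalgebra
  have hσfix : ∀ a : fixedZ H, ∀ h : H, h • (σ • (a : Zbar)) = σ • (a : Zbar) := by
    intro a h
    have h1 := a.2 ⟨σ⁻¹ * h.1 * σ, hσH h.1 h.2⟩
    have h2 : (h : GQ) • (σ • (a : Zbar)) = σ • ((σ⁻¹ * (h : GQ) * σ) • (a : Zbar)) := by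
      rw [← mul_smul, ← mul_smul]
      congr 1
      group
    change (h : GQ) • (σ • (a : Zbar)) = _
    rw [h2]
    congr 1
  let σ' : fixedZ H →+* fixedZ H :=
    { toFun := fun a => ⟨σ • (a : Zbar), hσfix a⟩
      map_one' := Subtype.ext (smul_one σ)
      map_mul' := fun a b => Subtype.ext (smul_mul' σ (a : Zbar) (b : Zbar))
      map_zero' := Subtype.ext (smul_zero σ)
      map_add' := fun a b => Subtype.ext (smul_add σ (a : Zbar) (b : Zbar)) }
  let f : (fixedZ H ⧸ Q.under (fixedZ H)) →+* (fixedZ H ⧸ Q.under (fixedZ H)) :=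
    Ideal.Quotient.lift _ ((Ideal.Quotient.mk _).comp σ') (by
      intro a ha
      rw [RingHom.comp_apply, Ideal.Quotient.eq_zero_iff_mem, Ideal.mem_comap]
      rw [Ideal.mem_comap] at ha
      change σ • (a : Zbar) ∈ Q
      rw [← hσQ]
      exact Ideal.smul_mem_pointwise_smul σ _ Q ha)
  obtain ⟨k, hk⟩ := exists_pow_eq_of_ringHom q _ f
  refine ⟨k, fun a => ?_⟩
  have h1 := hk (Ideal.Quotient.mk _ a)
  have h2 : f (Ideal.Quotient.mk _ a) = Ideal.Quotient.mk _ (σ' a) := rfl
  rw [h2, ← map_pow, Ideal.Quotient.eq, Ideal.mem_comap] at h1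
  exact h1

end FiniteField

/-! ### The fixed integers of a finite level -/

section Level

variable (F : IntermediateField ℚ Qbar) [FiniteDimensional ℚ F]

instance numberField_level : NumberField ↥F :=
  { to_charZero := inferInstance, to_finiteDimensional := inferInstance }

theorem coe_mem_of_mem_fixedZ (a : fixedZ F.fixingSubgroup) : ((a : Zbar) : Qbar) ∈ F := by
  have h1 : IntermediateField.fixedField F.fixingSubgroup = F :=
    InfiniteGalois.fixedField_fixingSubgroup F
  have h2 : ((a : Zbar) : Qbar) ∈ IntermediateField.fixedField F.fixingSubgroup := by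
    rw [IntermediateField.mem_fixedField_iff]
    intro g hg
    have := a.2 ⟨g, hg⟩
    exact congrArg (fun b : Zbar => (b : Qbar)) this
  rw [h1] at h2
  exact h2

/-- the inclusion of the `Gal(ℚ̄/F)`-fixed integers into the ring of integers of `F` -/
def fixedZToInt : fixedZ F.fixingSubgroup →+ 𝓞 ↥F where
  toFun a := ⟨⟨((a : Zbar) : Qbar), coe_mem_of_mem_fixedZ F a⟩, by
    have h : IsIntegral ℤ ((a : Zbar) : Qbar) := (a : Zbar).2
    exact (isIntegral_algHom_iff (F.val.restrictScalars ℤ) F.val.injective).mp h⟩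
  map_zero' := rfl
  map_add' a b := rfl

theorem fixedZToInt_injective : Function.Injective (fixedZToInt F) := by
  intro a b h
  apply Subtype.ext
  apply Subtype.ext
  exact congrArg (fun x : 𝓞 ↥F => ((x : ↥F) : Qbar)) h

instance finite_fixedZ : Module.Finite ℤ (fixedZ F.fixingSubgroup) :=
  Module.Finite.of_injective (fixedZToInt F).toIntLinearMap (fixedZToInt_injective F)

theorem finite_quot_fixedZ (q : ℕ) [Fact q.Prime] (Q : Ideal Zbar) (hq : (q : Zbar) ∈ Q) :
    Finite (fixedZ F.fixingSubgroup ⧸ Q.under (fixedZ F.fixingSubgroup)) := by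
  haveI : Module.Finite ℤ (fixedZ F.fixingSubgroup ⧸ Q.under (fixedZ F.fixingSubgroup)) :=
    Module.Finite.of_surjective
      ((Ideal.Quotient.mkₐ ℤ (Q.under (fixedZ F.fixingSubgroup))).toLinearMap)
      (Ideal.Quotient.mkₐ_surjective ℤ _)
  have hq0 : ((q : ℤ) : fixedZ F.fixingSubgroup ⧸ Q.under (fixedZ F.fixingSubgroup)) = 0 := by
    rw [Int.cast_natCast, ← map_natCast (Ideal.Quotient.mk (Q.under (fixedZ F.fixingSubgroup))) q,
      Ideal.Quotient.eq_zero_iff_mem, Ideal.mem_comap, map_natCast]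
    exact hq
  apply Module.finite_of_fg_torsion
  intro x
  refine ⟨⟨(q : ℤ), ?_⟩, ?_⟩
  · rw [mem_nonZeroDivisors_iff_ne_zero]
    exact_mod_cast (Fact.out : q.Prime).ne_zero
  · change (q : ℤ) • x = 0
    rw [zsmul_eq_mul, hq0, zero_mul]

end Level

/-! ### Places and primes of `ℤ̄` -/

section Places

variable {P : ValuationSubring Qbar} {q : ℕ}

theorem smul_primeOf_eq_of_mem_decomp {σ : GQ} (hσ : σ ∈ P.decompositionSubgroup ℚ) :
    σ • primeOf P = primeOf P := by
  rw [← primeOf_smul, mem_decomp_iff.1 hσ]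

theorem mem_decomp_of_smul_primeOf_eq (hq : q.Prime) (hP : P.LiesOverPrime q) {σ : GQ}
    (hσ : σ • primeOf P = primeOf P) : σ ∈ P.decompositionSubgroup ℚ := by
  rw [mem_decomp_iff]
  apply eq_of_primeOf_eq hq (liesOverPrime_smul hP) hP
  rw [primeOf_smul, hσ]

theorem coe_smul_zbar (σ : GQ) (b : Zbar) : ((σ • b : Zbar) : Qbar) = σ (b : Qbar) := rfl

/-- an element of the stabiliser of the prime of `ℤ̄` which acts trivially on `ℤ̄` modulo the prime
lies in the inertia group -/
theorem mem_inertia_of_primeOf (hq : q.Prime) (hP : P.LiesOverPrime q) {σ : GQ}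
    (hσ : σ • primeOf P = primeOf P) (h : ∀ b : Zbar, σ • b - b ∈ primeOf P) :
    σ ∈ P.inertiaSubgroupIn ℚ := by
  rw [mem_inertiaSubgroupIn_iff]
  refine ⟨mem_decomp_of_smul_primeOf_eq hq hP hσ, fun a ha => ?_⟩
  obtain ⟨s, hs, hsa⟩ := (mem_iff_exists_primeOf hq hP a).1 ha
  set b : Zbar := ⟨_, hsa⟩ with hb
  have hσs : σ • s ∉ primeOf P := by
    intro h'
    apply hs
    rw [← hσ] at h'
    exact Ideal.smul_mem_pointwise_smul_iff.mp h'
  have hs0 : (s : Qbar) ≠ 0 := by
    intro h0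
    apply hs
    have : s = 0 := Subtype.ext h0
    rw [this]; exact (primeOf P).zero_mem
  have hσs0 : σ (s : Qbar) ≠ 0 := by
    intro h0
    exact hs0 ((map_eq_zero σ).1 h0)
  -- the numerator
  have hnum : (σ • b - b) * s - b * (σ • s - s) ∈ primeOf P :=
    (primeOf P).sub_mem ((primeOf P).mul_mem_right _ (h b)) ((primeOf P).mul_mem_left _ (h s))
  rw [mem_primeOf] at hnum
  have hden : ((s : Qbar) * σ (s : Qbar))⁻¹ ∈ P := by
    rw [mul_inv]
    exact P.mul_mem _ _ (unit_of_not_mem_primeOf hs) (unit_of_not_mem_primeOf hσs)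
  have hkey : σ a - a = ((s : Qbar) * σ (s : Qbar))⁻¹ *
      (((σ • b - b) * s - b * (σ • s - s) : Zbar) : Qbar) := by
    have hba : (b : Qbar) = (s : Qbar) * a := rfl
    have hσb : ((σ • b : Zbar) : Qbar) = σ (s : Qbar) * σ a := by
      rw [coe_smul_zbar, hba, map_mul]
    push_cast
    rw [hσb, coe_smul_zbar, hba]
    field_simp
    ring
  rw [hkey]
  exact mul_mem_nonunits_of_mem hden hnum

theorem sub_mem_primeOf_of_mem_inertia {σ : GQ} (hσ : σ ∈ P.inertiaSubgroupIn ℚ) (b : Zbar) :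
    σ • b - b ∈ primeOf P := by
  rw [mem_primeOf]
  exact (mem_inertiaSubgroupIn_iff.1 hσ).2 _ (zbar_mem P b)

end Places

/-! ### The theorem -/

section Main

set_option synthInstance.maxHeartbeats 200000

theorem isMaximal_primeOf {P : ValuationSubring Qbar} {q : ℕ} (hq : q.Prime)
    (hP : P.LiesOverPrime q) : (primeOf P).IsMaximal := by
  haveI := liesOver_primeOf hq hP
  haveI := span_prime_isMaximal hq
  exact Ideal.IsMaximal.of_liesOver_isMaximal (primeOf P) (Ideal.span {(q : ℤ)})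

/-- **(K)**: modulo a finite normal level, the decomposition group is generated by the inertia group
and one Frobenius element. -/
theorem exists_frob_generates {P : ValuationSubring Qbar} {q : ℕ} (hq : q.Prime)
    (hP : P.LiesOverPrime q) (F : IntermediateField ℚ Qbar) [FiniteDimensional ℚ F] [Normal ℚ F] :
    ∃ φ ∈ P.decompositionSubgroup ℚ, ∀ σ ∈ P.decompositionSubgroup ℚ,
      ∃ (k : ℕ) (ι : GQ), ι ∈ P.inertiaSubgroupIn ℚ ∧ (φ ^ k * ι)⁻¹ * σ ∈ F.fixingSubgroup := by
  haveI : Fact q.Prime := ⟨hq⟩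
  set Q := primeOf P with hQ
  haveI hQmax : Q.IsMaximal := isMaximal_primeOf hq hP
  haveI hQl : Q.LiesOver (Ideal.span {(q : ℤ)}) := liesOver_primeOf hq hP
  have hqQ : (q : Zbar) ∈ Q := natCast_mem_primeOf hP
  obtain ⟨φ, hφQ, hφ⟩ := exists_frob_stabilizer q Q
  have hφD : φ ∈ P.decompositionSubgroup ℚ := mem_decomp_of_smul_primeOf_eq hq hP hφQ
  refine ⟨φ, hφD, fun σ hσ => ?_⟩
  have hσQ : σ • Q = Q := smul_primeOf_eq_of_mem_decomp hσ
  have hnormal : (F.fixingSubgroup).Normal := by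
    have h1 : IsGalois ℚ F := ⟨⟩
    have h2 : IsGalois ℚ Qbar := ⟨⟩
    exact @IsGalois.fixingSubgroup_normal_of_isGalois ℚ Qbar _ _ _ F h2 h1
  obtain ⟨k, hk⟩ := exists_pow_frob_on_fixed F.fixingSubgroup q Q hqQ
    (finite_quot_fixedZ F q Q hqQ) σ hσQ (fun h hh => by
      have := hnormal.conj_mem h hh σ⁻¹
      rwa [inv_inv] at this)
  -- `φ ^ k` acts as `x ↦ x ^ (q ^ k)` modulo `Q`
  have hφk : ∀ k : ℕ, (φ ^ k) • Q = Q ∧ ∀ b : Zbar, (φ ^ k) • b - b ^ (q ^ k) ∈ Q := by
    intro k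
    induction k with
    | zero => exact ⟨by rw [pow_zero, one_smul], fun b => by simp⟩
    | succ k ih =>
      refine ⟨by rw [pow_succ, mul_smul, hφQ, ih.1], fun b => ?_⟩
      have h1 : (φ ^ (k + 1)) • b - b ^ (q ^ (k + 1))
          = (φ ^ k) • (φ • b - b ^ q) + ((φ ^ k) • (b ^ q) - (b ^ q) ^ (q ^ k)) := by
        rw [pow_succ, mul_smul, smul_sub, pow_succ', pow_mul]
        ring
      rw [h1]
      refine Q.add_mem ?_ (ih.2 (b ^ q))
      have := Ideal.smul_mem_pointwise_smul (φ ^ k) _ Q (hφ b)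
      rwa [ih.1] at this
  obtain ⟨hφkQ, hφk'⟩ := hφk k
  set ψ : GQ := (φ ^ k)⁻¹ * σ with hψ
  have hinvQ : (φ ^ k)⁻¹ • Q = Q := by
    conv_lhs => rw [← hφkQ]
    rw [inv_smul_smul]
  have hψQ : ψ • Q = Q := by rw [hψ, mul_smul, hσQ, hinvQ]
  have hψfix : ∀ a : Zbar, (∀ h : F.fixingSubgroup, h • a = a) → ψ • a - a ∈ Q := by
    intro a ha
    have h1 : σ • a - (φ ^ k) • a ∈ Q := by
      have := Q.sub_mem (hk ⟨a, ha⟩) (hφk' a)
      rwa [sub_sub_sub_cancel_right] at this
    have h2 := Ideal.smul_mem_pointwise_smul (φ ^ k)⁻¹ _ Q h1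
    rw [hinvQ, smul_sub, inv_smul_smul, ← mul_smul] at h2
    exact h2
  obtain ⟨h, hhF, hhQ, hh⟩ := exists_lift_of_fixes F.fixingSubgroup
    (IntermediateField.fixingSubgroup_isClosed F) Q ψ hψQ hψfix
  -- `ι = ψ h⁻¹` is in the inertia group
  have hhinvQ : h⁻¹ • Q = Q := by
    conv_lhs => rw [← hhQ]
    rw [inv_smul_smul]
  have hι : ψ * h⁻¹ ∈ P.inertiaSubgroupIn ℚ := by
    refine mem_inertia_of_primeOf hq hP (by rw [mul_smul, hhinvQ, hψQ]) (fun b => ?_)
    have := hh (h⁻¹ • b)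
    rw [smul_inv_smul, ← mul_smul] at this
    have h2 := Q.neg_mem this
    rwa [neg_sub] at h2
  refine ⟨k, ψ * h⁻¹, hι, ?_⟩
  have : (φ ^ k * (ψ * h⁻¹))⁻¹ * σ = h := by
    rw [hψ]
    group
  rw [this]
  exact hhF

end Main

end Fermat.Agent.S56lib.Loc
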